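import Mathlib
import Fermat.Prelude.Def_ModularCurve_GenusNumerics
import Fermat.Agent.S24.GenusNat.Main

set_option autoImplicit false

/-!
C1-C4: orbit counts on `SL(2,ℤ) ⧸ Γ₀(N)` (left cosets, left multiplication action).
Wiring of the landed `Lib.Gamma0Count` / `S24.GenusNat.Main` results into the skeleton
signatures.
-/

namespace Fermat.Agent.S24.Comb

open ModularCurve CongruenceSubgroup
open scoped MatrixGroups

/-- C1 -/
theorem card_quotient_Gamma0 (N : ℕ) [NeZero N] :
    Nat.card (SL(2, ℤ) ⧸ Gamma0 N) = dedekindPsi N :=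
  Fermat.Agent.Lib.Gamma0Count.card_quotient_Gamma0 N (NeZero.ne N)

/-- C2 -/
theorem card_orbits_S (N : ℕ) [NeZero N] :
    2 * Nat.card (MulAction.orbitRel.Quotient (Subgroup.zpowers ModularGroup.S)
        (SL(2, ℤ) ⧸ Gamma0 N))
      = dedekindPsi N + nuTwo N :=
  Fermat.Agent.S24.GenusNat.two_mul_orbits_S N (NeZero.ne N)

/-- C3 -/
theorem card_orbits_ST (N : ℕ) [NeZero N] :
    3 * Nat.card (MulAction.orbitRel.Quotient
        (Subgroup.zpowers (ModularGroup.S * ModularGroup.T)) (SL(2, ℤ) ⧸ Gamma0 N))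
      = dedekindPsi N + 2 * nuThree N :=
  Fermat.Agent.S24.GenusNat.three_mul_orbits_ST N (NeZero.ne N)

/-- C4 -/
theorem card_orbits_T (N : ℕ) [NeZero N] :
    Nat.card (MulAction.orbitRel.Quotient (Subgroup.zpowers ModularGroup.T)
        (SL(2, ℤ) ⧸ Gamma0 N))
      = cuspCount N :=
  Fermat.Agent.Lib.Gamma0Count.card_orbits_T N (NeZero.ne N)

end Fermat.Agent.S24.Comb
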