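import Mathlib
import Fermat.Prelude.Def_ModularCurve_GenusNumerics
import Fermat.Agent.Lib.PermGenus
import Fermat.Agent.S24.Comb.Counts

set_option autoImplicit false

/-!
C5+C6: integrality and non-negativity of the genus formula
(parity via signs of permutations; Ree / Scott inequality), from `Lib.PermGenus` and the
coset counts C1-C4.
-/

namespace Fermat.Agent.S24.Comb

open ModularCurve CongruenceSubgroup Fermat.Agent.Lib.PermGenus
open scoped MatrixGroups

/-- Ree's inequality and the parity statement for a transitive action of a group generated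
by two elements. -/
theorem ree_action {X G : Type*} [Group G] [MulAction G X] [Finite X]
    [MulAction.IsPretransitive G X] (a b : G) (hgen : Subgroup.closure {a, b} = ⊤) :
    orb X a + orb X b + orb X (a * b) ≤ Nat.card X + 2 ∧
      Even (Nat.card X + orb X a + orb X b + orb X (a * b)) := by
  classical
  have : Fintype X := Fintype.ofFinite X
  set s : Equiv.Perm X := MulAction.toPerm a with hs_def
  set t : Equiv.Perm X := MulAction.toPerm b with ht_def
  have hst_def : s * t = MulAction.toPerm (a * b) :=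
    (map_mul (MulAction.toPermHom G X) a b).symm
  have htrans : ∀ x y : X, ∃ g ∈ Subgroup.closure {s, t}, g x = y := by
    intro x y
    obtain ⟨g, rfl⟩ := MulAction.exists_smul_eq G x y
    refine ⟨MulAction.toPermHom G X g, ?_, rfl⟩
    have h1 : g ∈ Subgroup.closure {a, b} := by rw [hgen]; exact Subgroup.mem_top g
    have h2 : MulAction.toPermHom G X g ∈
        (Subgroup.closure {a, b}).map (MulAction.toPermHom G X) :=
      Subgroup.mem_map_of_mem _ h1
    rw [MonoidHom.map_closure, Set.image_pair] at h2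
    exact h2
  rw [orb_eq_numOrbits, orb_eq_numOrbits, orb_eq_numOrbits, ← hs_def, ← ht_def, ← hst_def,
    Nat.card_eq_fintype_card]
  exact ⟨ree_le s t htrans, ree_even s t⟩

/-- C5+C6, stated through the counts. -/
theorem genus_numerics (N : ℕ) [NeZero N] (r0 r1 : ℕ)
    (h0 : 3 * r0 = dedekindPsi N + 2 * nuThree N) (h1 : 2 * r1 = dedekindPsi N + nuTwo N) :
    ∃ g : ℕ, dedekindPsi N + 2 = r0 + r1 + cuspCount N + 2 * g := by
  have hcard := card_quotient_Gamma0 N
  have hS := card_orbits_S N
  have hST := card_orbits_ST N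
  have hT := card_orbits_T N
  have hpos : 0 < dedekindPsi N := by
    rw [dedekindPsi]
    apply Finset.sum_pos'
    · intro d _
      exact Nat.zero_le _
    · refine ⟨1, ?_, ?_⟩
      · simp [NeZero.ne N]
      · simpa using Nat.pos_of_ne_zero (NeZero.ne N)
  have hfin : Finite (SL(2, ℤ) ⧸ Gamma0 N) := by
    apply Nat.finite_of_card_ne_zero
    rw [hcard]
    exact hpos.ne'
  obtain ⟨hle, hev⟩ := ree_action (X := SL(2, ℤ) ⧸ Gamma0 N) ModularGroup.S ModularGroup.T
    SpecialLinearGroup.SL2Z_generators
  have eS : orb (SL(2, ℤ) ⧸ Gamma0 N) ModularGroup.S = r1 := by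
    have : 2 * orb (SL(2, ℤ) ⧸ Gamma0 N) ModularGroup.S = 2 * r1 := by
      rw [h1]; exact hS
    omega
  have eST : orb (SL(2, ℤ) ⧸ Gamma0 N) (ModularGroup.S * ModularGroup.T) = r0 := by
    have : 3 * orb (SL(2, ℤ) ⧸ Gamma0 N) (ModularGroup.S * ModularGroup.T) = 3 * r0 := by
      rw [h0]; exact hST
    omega
  have eT : orb (SL(2, ℤ) ⧸ Gamma0 N) ModularGroup.T = cuspCount N := hT
  rw [eS, eST, eT, hcard] at hle hev
  obtain ⟨k, hk⟩ := hev
  exact ⟨dedekindPsi N + 1 - k, by omega⟩

end Fermat.Agent.S24.Comb
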